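import Fermat.Agent.MUL.Orig.F4.HyperLES

/-!
# F4 / UC : universal coefficients for `K = [I[p] → (I/C)[p]]` — data and basic lemmas

Seat UC of cluster D (S55), owner helper9.  Blueprint: `NOTES/blueprint-F4-v2.md`.

`UCData p K C I Q` : a 2-term complex `K` of `𝔽_p[G]`-modules together with an exact sequence
`0 → C → I → Q → 0` of `ℤ[G]`-modules, `I` `p`-divisible, and identifications `K⁰ = I[p]`,
`K¹ = Q[p]` compatible with the differentials.  Then `HH^r(K) = Ext^r(𝔽_p, C)` and there are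
exact sequences `0 → H^{r-1}(C)/p → HH^r(K) → H^r(C)[p] → 0` (`UC/Seq2.lean`, `UC/Seq1.lean`).
-/

set_option autoImplicit false
set_option linter.unusedSectionVars false

open CategoryTheory groupCohomology

namespace Fermat.Agent.F4

variable {G : Type} [Group G]

/-- The universal-coefficient datum: `0 → C → I → Q → 0` exact, `I` `p`-divisible,
`K⁰ = I[p]`, `K¹ = Q[p]`, `d = π`. -/
structure UCData (p : ℕ) (K : Cx (ZMod p) G) (C I Q : Rep.{0} ℤ G) where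
  ι : C →+ I
  π : I →+ Q
  i0 : K.K0 →+ I
  i1 : K.K1 →+ Q
  ι_inj : Function.Injective ι
  π_surj : Function.Surjective π
  exact : ∀ x : I, π x = 0 ↔ ∃ c : C, ι c = x
  ι_comm : ∀ (g : G) (c : C), ι (C.ρ g c) = I.ρ g (ι c)
  π_comm : ∀ (g : G) (x : I), π (I.ρ g x) = Q.ρ g (π x)
  i0_comm : ∀ (g : G) (x : K.K0), i0 (K.K0.ρ g x) = I.ρ g (i0 x)
  i1_comm : ∀ (g : G) (x : K.K1), i1 (K.K1.ρ g x) = Q.ρ g (i1 x)
  i0_inj : Function.Injective i0
  i1_inj : Function.Injective i1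
  i0_range : ∀ x : I, (p : ℤ) • x = 0 → ∃ t : K.K0, i0 t = x
  i1_range : ∀ x : Q, (p : ℤ) • x = 0 → ∃ t : K.K1, i1 t = x
  comm : ∀ t : K.K0, π (i0 t) = i1 (K.d t)
  div : ∀ x : I, ∃ y : I, (p : ℤ) • y = x

/-! ### small lemmas on level-constant cochains (private to the UC seat) -/

namespace UC

variable {𝓤 : Levels G}

lemma isLC₁_neg {X : Type*} [Neg X] {f : G → X} (hf : IsLC₁ 𝓤 f) :
    IsLC₁ 𝓤 (fun g => -f g) := hf.comp (fun x => -x)

lemma isLC₂_neg {X : Type*} [Neg X] {f : G × G → X} (hf : IsLC₂ 𝓤 f) :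
    IsLC₂ 𝓤 (fun g => -f g) := hf.comp (fun x => -x)

lemma isLC₁_add {X : Type*} [Add X] {f f' : G → X} (hf : IsLC₁ 𝓤 f) (hf' : IsLC₁ 𝓤 f') :
    IsLC₁ 𝓤 (fun g => f g + f' g) := hf.add hf'

lemma isLC₂_add {X : Type*} [Add X] {f f' : G × G → X} (hf : IsLC₂ 𝓤 f) (hf' : IsLC₂ 𝓤 f') :
    IsLC₂ 𝓤 (fun g => f g + f' g) := hf.add hf'

lemma isLC₁_sub {X : Type*} [AddGroup X] {f f' : G → X} (hf : IsLC₁ 𝓤 f) (hf' : IsLC₁ 𝓤 f') :
    IsLC₁ 𝓤 (fun g => f g - f' g) := by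
  have := isLC₁_add hf (isLC₁_neg hf')
  simpa only [sub_eq_add_neg] using this

lemma isLC₂_sub {X : Type*} [AddGroup X] {f f' : G × G → X} (hf : IsLC₂ 𝓤 f)
    (hf' : IsLC₂ 𝓤 f') : IsLC₂ 𝓤 (fun g => f g - f' g) := by
  have := isLC₂_add hf (isLC₂_neg hf')
  simpa only [sub_eq_add_neg] using this

lemma isLC₁_of_inj {X Y : Type*} {φ : X → Y} (hφ : Function.Injective φ) {f : G → X}
    (hf : IsLC₁ 𝓤 (fun g => φ (f g))) : IsLC₁ 𝓤 f := by
  obtain ⟨U, hU, h⟩ := hf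
  exact ⟨U, hU, fun g s hs => hφ (h g s hs)⟩

lemma isLC₂_of_inj {X Y : Type*} {φ : X → Y} (hφ : Function.Injective φ) {f : G × G → X}
    (hf : IsLC₂ 𝓤 (fun g => φ (f g))) : IsLC₂ 𝓤 f := by
  obtain ⟨U, hU, h⟩ := hf
  exact ⟨U, hU, fun g g' s s' hs hs' => hφ (h g g' s s' hs hs')⟩

lemma isLC₁_map {X Y : Type*} (φ : X → Y) {f : G → X} (hf : IsLC₁ 𝓤 f) :
    IsLC₁ 𝓤 (fun g => φ (f g)) := hf.comp φ

lemma isLC₂_map {X Y : Type*} (φ : X → Y) {f : G × G → X} (hf : IsLC₂ 𝓤 f) :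
    IsLC₂ 𝓤 (fun g => φ (f g)) := hf.comp φ

variable (𝓤) in
lemma mem_Z1 (A : Rep.{0} ℤ G) (c : G → A) : c ∈ Z1 𝓤 A ↔ δ1 A c = 0 ∧ IsLC₁ 𝓤 c := Iff.rfl

variable (𝓤) in
lemma mem_Z2 (A : Rep.{0} ℤ G) (w : G × G → A) : w ∈ Z2 𝓤 A ↔ δ2 A w = 0 ∧ IsLC₂ 𝓤 w :=
  Iff.rfl

lemma mem_B1 (A : Rep.{0} ℤ G) (c : G → A) : c ∈ B1 A ↔ ∃ x : A, δ0 A x = c := Iff.rfl

variable (𝓤) in
lemma mem_B2 (A : Rep.{0} ℤ G) (w : G × G → A) :
    w ∈ B2 𝓤 A ↔ ∃ e : G → A, IsLC₁ 𝓤 e ∧ δ1 A e = w := Iff.rfl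

/-- Multiplication by `p` kills any `ZMod p`-module. -/
lemma p_smul_eq_zero {p : ℕ} {M : Type} [AddCommGroup M] [Module (ZMod p) M] (t : M) :
    (p : ℤ) • t = 0 := by
  have h : ((p : ℤ) : ZMod p) • t = 0 := by
    have : ((p : ℤ) : ZMod p) = 0 := by
      rw [Int.cast_natCast]; exact ZMod.natCast_self p
    rw [this, zero_smul]
  rw [← h]
  exact (Int.cast_smul_eq_zsmul (ZMod p) (p : ℤ) t).symm

end UC

namespace UCData

variable {p : ℕ} {K : Cx (ZMod p) G} {C I Q : Rep.{0} ℤ G} (D : UCData p K C I Q)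

lemma π_ι (c : C) : D.π (D.ι c) = 0 := (D.exact _).2 ⟨c, rfl⟩

lemma p_i0 (t : K.K0) : (p : ℤ) • D.i0 t = 0 := by
  rw [← map_zsmul, UC.p_smul_eq_zero, map_zero]

lemma p_i1 (t : K.K1) : (p : ℤ) • D.i1 t = 0 := by
  rw [← map_zsmul, UC.p_smul_eq_zero, map_zero]

/-- A set-theoretic section of `π`. -/
noncomputable def sec (x : Q) : I := (D.π_surj x).choose

lemma π_sec (x : Q) : D.π (D.sec x) = x := (D.π_surj x).choose_spec

/-- A set-theoretic division by `p` on `I`. -/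
noncomputable def divp (x : I) : I := (D.div x).choose

lemma p_divp (x : I) : (p : ℤ) • D.divp x = x := (D.div x).choose_spec

include D in
/-- `C` is smooth when `I` is. -/
lemma smoothC {𝓤 : Levels G} (hI : IsSmooth 𝓤 I) : IsSmooth 𝓤 C := by
  intro c
  obtain ⟨U, hU, h⟩ := hI (D.ι c)
  refine ⟨U, hU, fun g hg => D.ι_inj ?_⟩
  rw [D.ι_comm, h g hg]

include D in
/-- `Q` is smooth when `I` is. -/
lemma smoothQ {𝓤 : Levels G} (hI : IsSmooth 𝓤 I) : IsSmooth 𝓤 Q := by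
  intro x
  obtain ⟨y, rfl⟩ := D.π_surj x
  obtain ⟨U, hU, h⟩ := hI y
  refine ⟨U, hU, fun g hg => ?_⟩
  rw [← D.π_comm, h g hg]

include D in
/-- The complex `K` is smooth when `I` is. -/
lemma smoothK {𝓤 : Levels G} (hI : IsSmooth 𝓤 I) : K.Smooth 𝓤 := by
  refine ⟨fun t => ?_, fun t => ?_⟩
  · obtain ⟨U, hU, h⟩ := hI (D.i0 t)
    refine ⟨U, hU, fun g hg => D.i0_inj ?_⟩
    rw [D.i0_comm, h g hg]
  · obtain ⟨U, hU, h⟩ := D.smoothQ hI (D.i1 t)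
    refine ⟨U, hU, fun g hg => D.i1_inj ?_⟩
    rw [D.i1_comm, h g hg]

/-! ### compatibility of the maps with the differentials -/

lemma ι_δ0 (c : C) (g : G) : D.ι (δ0 C c g) = δ0 I (D.ι c) g := by
  simp only [δ0_apply, map_sub, D.ι_comm]

lemma ι_δ1 (c : G → C) (q : G × G) : D.ι (δ1 C c q) = δ1 I (fun g => D.ι (c g)) q := by
  simp only [δ1_apply, map_sub, map_add, D.ι_comm]

lemma ι_δ2 (c : G × G → C) (q : G × G × G) :
    D.ι (δ2 C c q) = δ2 I (fun g => D.ι (c g)) q := by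
  simp only [δ2_apply, map_sub, map_add, D.ι_comm]

lemma π_δ0 (y : I) (g : G) : D.π (δ0 I y g) = δ0 Q (D.π y) g := by
  simp only [δ0_apply, map_sub, D.π_comm]

lemma π_δ1 (y : G → I) (q : G × G) : D.π (δ1 I y q) = δ1 Q (fun g => D.π (y g)) q := by
  simp only [δ1_apply, map_sub, map_add, D.π_comm]

lemma i0_δ0 (t : K.K0) (g : G) : D.i0 (δ0 K.K0 t g) = δ0 I (D.i0 t) g := by
  simp only [δ0_apply, map_sub, D.i0_comm]

lemma i0_δ1 (t : G → K.K0) (q : G × G) :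
    D.i0 (δ1 K.K0 t q) = δ1 I (fun g => D.i0 (t g)) q := by
  simp only [δ1_apply, map_sub, map_add, D.i0_comm]

lemma i0_δ2 (t : G × G → K.K0) (q : G × G × G) :
    D.i0 (δ2 K.K0 t q) = δ2 I (fun g => D.i0 (t g)) q := by
  simp only [δ2_apply, map_sub, map_add, D.i0_comm]

lemma i1_δ0 (t : K.K1) (g : G) : D.i1 (δ0 K.K1 t g) = δ0 Q (D.i1 t) g := by
  simp only [δ0_apply, map_sub, D.i1_comm]

lemma i1_δ1 (t : G → K.K1) (q : G × G) :
    D.i1 (δ1 K.K1 t q) = δ1 Q (fun g => D.i1 (t g)) q := by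
  simp only [δ1_apply, map_sub, map_add, D.i1_comm]

/-- An element of `I` killed by `π` comes from `C` (chosen preimage). -/
noncomputable def preC (x : I) (h : D.π x = 0) : C := ((D.exact x).1 h).choose

lemma ι_preC (x : I) (h : D.π x = 0) : D.ι (D.preC x h) = x := ((D.exact x).1 h).choose_spec

/-- An element of `I` killed by `p` comes from `K⁰` (chosen preimage). -/
noncomputable def pre0 (x : I) (h : (p : ℤ) • x = 0) : K.K0 := (D.i0_range x h).choose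

lemma i0_pre0 (x : I) (h : (p : ℤ) • x = 0) : D.i0 (D.pre0 x h) = x :=
  (D.i0_range x h).choose_spec

/-- An element of `Q` killed by `p` comes from `K¹` (chosen preimage). -/
noncomputable def pre1 (x : Q) (h : (p : ℤ) • x = 0) : K.K1 := (D.i1_range x h).choose

lemma i1_pre1 (x : Q) (h : (p : ℤ) • x = 0) : D.i1 (D.pre1 x h) = x :=
  (D.i1_range x h).choose_spec

end UCData

end Fermat.Agent.F4
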